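import Mathlib.Algebra.Polynomial.Monic
import Mathlib.Analysis.Complex.Polynomial.Basic
import Mathlib.Tactic.LinearCombination
import Mathlib.Tactic.Linarith

/-!
# Perron's criterion

If the second coefficient dominates the others, exactly one root lies outside the open unit disc
(Panaitopol's argument on the cofactor of that root), and a monic integral factor without that
root would have a constant term of absolute value below `1`.
-/

set_option autoImplicit false

namespace FA.PerronCriterion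

open Polynomial Finset

/-- The roots outside the open unit disc. -/
noncomputable def outerRoots (f : ℤ[X]) : Multiset ℂ :=
  (f.map (Int.castRingHom ℂ)).roots.filter fun z => 1 ≤ ‖z‖

theorem abs_coeff_zero_eq (f : ℤ[X]) (hf : f.Monic) :
    |((f.coeff 0 : ℤ) : ℝ)| = ((f.map (Int.castRingHom ℂ)).roots.map fun z => ‖z‖).prod := by
  have h := (IsAlgClosed.splits (f.map (Int.castRingHom ℂ))).coeff_zero_eq_prod_roots_of_monic
    (hf.map _)
  rw [coeff_map, eq_intCast] at h
  have h' := congrArg (fun z : ℂ => ‖z‖) h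
  simp only [norm_mul, norm_pow, norm_neg, norm_one, one_pow, one_mul, Complex.norm_intCast] at h'
  rw [h']
  generalize (f.map (Int.castRingHom ℂ)).roots = M
  induction M using Multiset.induction with
  | empty => simp
  | cons a t ih => simp [ih]

theorem prod_lt_one {s : Multiset ℝ} (hs : s ≠ 0) (h : ∀ x ∈ s, 0 ≤ x ∧ x < 1) : s.prod < 1 := by
  induction s using Multiset.induction with
  | empty => exact absurd rfl hs
  | cons a t ih =>
    rw [Multiset.prod_cons]
    obtain ⟨ha0, ha1⟩ := h a (Multiset.mem_cons_self a t)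
    rcases eq_or_ne t 0 with rfl | ht
    · simpa using ha1
    · have h' := fun x hx => h x (Multiset.mem_cons_of_mem hx)
      nlinarith [ih ht h', Multiset.prod_nonneg fun x hx => (h' x hx).1]

/-- A monic integral factor has a root outside the open unit disc. -/
theorem outerRoots_ne_zero {g : ℤ[X]} (hg : g.Monic) (hd : g.natDegree ≠ 0)
    (h0 : g.coeff 0 ≠ 0) : outerRoots g ≠ 0 := fun h => by
  have hlt : |((g.coeff 0 : ℤ) : ℝ)| < 1 := by
    rw [abs_coeff_zero_eq g hg]
    refine prod_lt_one (fun he => hd ?_) fun x hx => ?_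
    · rw [← hg.natDegree_map (Int.castRingHom ℂ),
        (IsAlgClosed.splits (g.map (Int.castRingHom ℂ))).natDegree_eq_card_roots]
      simpa using he
    · obtain ⟨z, hz, rfl⟩ := Multiset.mem_map.1 hx
      exact ⟨norm_nonneg z, not_le.1 ((Multiset.filter_eq_nil.1 h) z hz)⟩
  have hcast : |g.coeff 0| < 1 := by exact_mod_cast hlt
  exact h0 (Int.abs_lt_one_iff.1 hcast)

/-- With at most one root outside the open unit disc the polynomial is irreducible. -/
theorem irreducible_of_outerRoots {f : ℤ[X]} (hf : f.Monic) (hd : f.natDegree ≠ 0)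
    (h0 : f.coeff 0 ≠ 0) (h : (outerRoots f).card ≤ 1) : Irreducible f := by
  rw [hf.irreducible_iff_natDegree]
  refine ⟨fun h1 => hd (h1 ▸ natDegree_one), fun g k hg hk hgk => ?_⟩
  by_contra hne
  push Not at hne
  have hk0 : g.coeff 0 ≠ 0 ∧ k.coeff 0 ≠ 0 := by
    rw [← hgk, mul_coeff_zero] at h0
    exact mul_ne_zero_iff.1 h0
  have hcard : (outerRoots f).card = (outerRoots g).card + (outerRoots k).card := by
    have hne' : g.map (Int.castRingHom ℂ) * k.map (Int.castRingHom ℂ) ≠ 0 :=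
      ((hg.map _).mul (hk.map _)).ne_zero
    rw [outerRoots, ← hgk, Polynomial.map_mul, roots_mul hne', Multiset.filter_add,
      Multiset.card_add]
    rfl
  have h1 := Multiset.card_pos.2 (outerRoots_ne_zero hg hne.1 hk0.1)
  have h2 := Multiset.card_pos.2 (outerRoots_ne_zero hk hne.2 hk0.2)
  omega

/-- Panaitopol's bound on the cofactor of a root outside the unit disc. -/
theorem sum_cofactor_le {R : ℂ[X]} (hR : R.Monic) (α : ℂ) {m : ℕ} (hm : R.natDegree = m + 1) :
    ‖((X - C α) * R).coeff (m + 1)‖ + (‖α‖ - 1) * ∑ k ∈ range (m + 1), ‖R.coeff k‖ ≤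
      ‖α‖ + ∑ k ∈ range (m + 1), ‖((X - C α) * R).coeff k‖ := by
  have hlead : R.coeff (m + 1) = 1 := hm ▸ hR.coeff_natDegree
  have htop : ‖((X - C α) * R).coeff (m + 1)‖ ≤ ‖R.coeff m‖ + ‖α‖ := by
    rw [coeff_X_sub_C_mul, hlead, mul_one]
    exact norm_sub_le _ _
  have hlow : ‖α‖ * ‖R.coeff 0‖ = ‖((X - C α) * R).coeff 0‖ := by
    simp [mul_coeff_zero]
  have hstep : ∀ k, ‖α‖ * ‖R.coeff (k + 1)‖ ≤
      ‖((X - C α) * R).coeff (k + 1)‖ + ‖R.coeff k‖ := fun k => by
    rw [coeff_X_sub_C_mul, ← norm_mul]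
    calc ‖α * R.coeff (k + 1)‖ = ‖R.coeff k - (R.coeff k - α * R.coeff (k + 1))‖ := by
          rw [sub_sub_cancel]
      _ ≤ ‖R.coeff k‖ + ‖R.coeff k - α * R.coeff (k + 1)‖ := norm_sub_le _ _
      _ = _ := add_comm _ _
  have hsum := sum_le_sum fun k (_ : k ∈ range m) => hstep k
  rw [sum_add_distrib, ← mul_sum] at hsum
  have e1 : ∑ k ∈ range (m + 1), ‖R.coeff k‖ =
      (∑ k ∈ range m, ‖R.coeff (k + 1)‖) + ‖R.coeff 0‖ := sum_range_succ' _ m
  have e2 : ∑ k ∈ range (m + 1), ‖R.coeff k‖ =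
      (∑ k ∈ range m, ‖R.coeff k‖) + ‖R.coeff m‖ := sum_range_succ _ m
  have e3 : ∑ k ∈ range (m + 1), ‖((X - C α) * R).coeff k‖ =
      (∑ k ∈ range m, ‖((X - C α) * R).coeff (k + 1)‖) + ‖((X - C α) * R).coeff 0‖ :=
    sum_range_succ' _ m
  have e4 : ‖α‖ * ∑ k ∈ range (m + 1), ‖R.coeff k‖ =
      ‖α‖ * (∑ k ∈ range m, ‖R.coeff (k + 1)‖) + ‖α‖ * ‖R.coeff 0‖ := by rw [e1, mul_add]
  have e5 : (‖α‖ - 1) * ∑ k ∈ range (m + 1), ‖R.coeff k‖ =
      ‖α‖ * (∑ k ∈ range (m + 1), ‖R.coeff k‖) - ∑ k ∈ range (m + 1), ‖R.coeff k‖ := by ring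
  linarith

/-- The roots of a monic polynomial with small coefficients. -/
theorem norm_root_le {R : ℂ[X]} (hR : R.Monic) {z : ℂ} (hz : R.IsRoot z) :
    (∑ k ∈ range R.natDegree, ‖R.coeff k‖ < 1 → ‖z‖ < 1) ∧
      (∑ k ∈ range R.natDegree, ‖R.coeff k‖ ≤ 1 → ‖z‖ ≤ 1) := by
  have key : 1 ≤ ‖z‖ → ‖z‖ * ‖z‖ ^ R.natDegree ≤
      (∑ k ∈ range R.natDegree, ‖R.coeff k‖) * ‖z‖ ^ R.natDegree := fun h => by
    have he : z ^ R.natDegree = -∑ k ∈ range R.natDegree, R.coeff k * z ^ k := by
      have := hz.eq_zero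
      rw [eval_eq_sum_range, sum_range_succ, hR.coeff_natDegree, one_mul] at this
      linear_combination this
    calc ‖z‖ * ‖z‖ ^ R.natDegree = ‖z * ∑ k ∈ range R.natDegree, R.coeff k * z ^ k‖ := by
          rw [norm_mul, ← norm_neg (∑ k ∈ range R.natDegree, R.coeff k * z ^ k), ← he, norm_pow]
      _ ≤ ∑ k ∈ range R.natDegree, ‖z * (R.coeff k * z ^ k)‖ := by
          rw [mul_sum]
          exact norm_sum_le _ _
      _ ≤ _ := by
          rw [sum_mul]
          refine sum_le_sum fun k hk => ?_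
          rw [norm_mul, norm_mul, norm_pow, mul_left_comm, ← pow_succ']
          exact mul_le_mul_of_nonneg_left (pow_le_pow_right₀ h (by simpa using hk)) (norm_nonneg _)
  constructor <;> intro hs <;> by_contra hc <;> push Not at hc
  · have := le_of_mul_le_mul_right (key hc) (pow_pos (by linarith) _)
    linarith
  · have := le_of_mul_le_mul_right (key hc.le) (pow_pos (by linarith) _)
    linarith

variable {f : ℤ[X]}

theorem perron_no_circle_root (hf : f.Monic) {m : ℕ} (hm : f.natDegree = m + 2)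
    (h : 1 + ∑ k ∈ range (m + 1), |f.coeff k| < |f.coeff (m + 1)|) {z : ℂ}
    (hz : (f.map (Int.castRingHom ℂ)).IsRoot z) : ‖z‖ ≠ 1 := fun h1 => by
  have he := hz.eq_zero
  rw [eval_eq_sum_range, hf.natDegree_map, hm, sum_range_succ, sum_range_succ] at he
  simp only [coeff_map, eq_intCast] at he
  rw [show f.coeff (m + 2) = 1 from hm ▸ hf.coeff_natDegree, Int.cast_one, one_mul] at he
  have hb : ‖(f.coeff (m + 1) : ℂ) * z ^ (m + 1)‖ ≤
      ‖z ^ (m + 2)‖ + ∑ k ∈ range (m + 1), ‖(f.coeff k : ℂ) * z ^ k‖ := by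
    rw [show (f.coeff (m + 1) : ℂ) * z ^ (m + 1) =
      -(z ^ (m + 2) + ∑ k ∈ range (m + 1), (f.coeff k : ℂ) * z ^ k) by linear_combination he,
      norm_neg]
    exact (norm_add_le _ _).trans (add_le_add le_rfl (norm_sum_le _ _))
  simp only [norm_mul, norm_pow, h1, one_pow, mul_one, Complex.norm_intCast] at hb
  have h' : (1 : ℝ) + ∑ k ∈ range (m + 1), |(f.coeff k : ℝ)| < |(f.coeff (m + 1) : ℝ)| := by
    exact_mod_cast h
  linarith

/-- A root outside the closed disc leaves a cofactor with roots inside. -/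
theorem outerRoots_eq_singleton (hf : f.Monic) {α : ℂ} {R : ℂ[X]}
    (hR : f.map (Int.castRingHom ℂ) = (X - C α) * R) (hα : 1 ≤ ‖α‖)
    (h : ∀ z, R.IsRoot z → ‖z‖ < 1) : outerRoots f = {α} := by
  have hne : (X - C α) * R ≠ 0 := hR ▸ (hf.map _).ne_zero
  rw [outerRoots, hR, roots_mul hne, roots_X_sub_C, Multiset.filter_add,
    Multiset.filter_singleton, if_pos hα,
    Multiset.filter_eq_nil.2 fun z hz => not_le.2 (h z (isRoot_of_mem_roots hz)), add_zero]

/-- Perron: exactly one root outside the open unit disc, and none on the circle. -/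
theorem perron_outerRoots (hf : f.Monic) {m : ℕ} (hm : f.natDegree = m + 2) (h0 : f.coeff 0 ≠ 0)
    (h : 1 + ∑ k ∈ range (m + 1), |f.coeff k| < |f.coeff (m + 1)|) :
    ∃ α : ℂ, 1 < ‖α‖ ∧ outerRoots f = {α} := by
  obtain ⟨α, hα⟩ := Multiset.exists_mem_of_ne_zero (outerRoots_ne_zero hf (by omega) h0)
  rw [outerRoots, Multiset.mem_filter] at hα
  have hr := isRoot_of_mem_roots hα.1
  have hα1 : 1 < ‖α‖ := lt_of_le_of_ne hα.2 (Ne.symm (perron_no_circle_root hf hm h hr))
  obtain ⟨R, hR⟩ := dvd_iff_isRoot.2 hr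
  have hRm : R.Monic := (monic_X_sub_C α).of_mul_monic_left (hR ▸ hf.map _)
  have hRd : R.natDegree = m + 1 := by
    have := congrArg natDegree hR
    rw [hf.natDegree_map, (monic_X_sub_C α).natDegree_mul hRm, natDegree_X_sub_C, hm] at this
    omega
  have hb := sum_cofactor_le hRm α hRd
  rw [← hR] at hb
  simp only [coeff_map, eq_intCast, Complex.norm_intCast] at hb
  have h' : (1 : ℝ) + ∑ k ∈ range (m + 1), |(f.coeff k : ℝ)| < |(f.coeff (m + 1) : ℝ)| := by
    exact_mod_cast h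
  refine ⟨α, hα1, outerRoots_eq_singleton hf hR hα.2 fun z hz => (norm_root_le hRm hz).1 ?_⟩
  rw [hRd]
  nlinarith

/-- Perron's criterion. -/
theorem perron (hf : f.Monic) (hd : f.natDegree ≠ 0) (h0 : f.coeff 0 ≠ 0)
    (h : 1 + ∑ k ∈ range (f.natDegree - 1), |f.coeff k| < |f.coeff (f.natDegree - 1)|) :
    Irreducible f ∧ ∃ α : ℂ, 1 < ‖α‖ ∧ outerRoots f = {α} := by
  suffices hs : ∃ α : ℂ, 1 < ‖α‖ ∧ outerRoots f = {α} from
    ⟨irreducible_of_outerRoots hf hd h0 (by obtain ⟨α, -, e⟩ := hs; simp [e]), hs⟩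
  rcases eq_or_ne f.natDegree 1 with h1 | h1
  · rw [h1] at h
    simp only [Nat.sub_self, range_zero, sum_empty, add_zero] at h
    have hc : f = X + C (f.coeff 0) := hf.eq_X_add_C h1
    have hn : ‖-((f.coeff 0 : ℤ) : ℂ)‖ = |((f.coeff 0 : ℤ) : ℝ)| := by
      rw [norm_neg, Complex.norm_intCast]
    have hlt : (1 : ℝ) < |((f.coeff 0 : ℤ) : ℝ)| := by exact_mod_cast h
    refine ⟨-((f.coeff 0 : ℤ) : ℂ), by rw [hn]; exact hlt,
      outerRoots_eq_singleton hf (R := 1) ?_ (by rw [hn]; exact hlt.le)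
        fun z hz => absurd hz (by simp)⟩
    conv_lhs => rw [hc]
    simp
  · obtain ⟨m, hm⟩ : ∃ m, f.natDegree = m + 2 := ⟨f.natDegree - 2, by omega⟩
    rw [hm] at h
    exact perron_outerRoots hf hm h0 h

/-- Osada's criterion. -/
theorem osada (hf : f.Monic) (hp : (f.coeff 0).natAbs.Prime)
    (h : ∑ k ∈ range f.natDegree, |f.coeff (k + 1)| < |f.coeff 0|) : Irreducible f := by
  have hd : f.natDegree ≠ 0 := fun hd => by
    rw [hf.natDegree_eq_zero.1 hd, coeff_one_zero] at hp
    exact Nat.not_prime_one hp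
  rw [hf.irreducible_iff_natDegree]
  refine ⟨fun h1 => hd (h1 ▸ natDegree_one), ?_⟩
  have hroot : ∀ z : ℂ, (f.map (Int.castRingHom ℂ)).IsRoot z → 1 < ‖z‖ := by
    intro z hz
    by_contra hc
    push Not at hc
    have he := hz.eq_zero
    rw [eval_eq_sum_range, hf.natDegree_map, sum_range_succ'] at he
    simp only [coeff_map, eq_intCast, pow_zero, mul_one] at he
    have hb : ‖(f.coeff 0 : ℂ)‖ ≤ ∑ k ∈ range f.natDegree, |(f.coeff (k + 1) : ℝ)| := by
      rw [show (f.coeff 0 : ℂ) = -∑ k ∈ range f.natDegree, (f.coeff (k + 1) : ℂ) * z ^ (k + 1) by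
        linear_combination he, norm_neg]
      refine (norm_sum_le _ _).trans (sum_le_sum fun k _ => ?_)
      rw [norm_mul, norm_pow, Complex.norm_intCast]
      exact mul_le_of_le_one_right (abs_nonneg _) (pow_le_one₀ (norm_nonneg _) hc)
    rw [Complex.norm_intCast] at hb
    have h' : (∑ k ∈ range f.natDegree, |(f.coeff (k + 1) : ℝ)|) < |(f.coeff 0 : ℝ)| := by
      exact_mod_cast h
    linarith
  intro g k hg hk hgk
  by_contra hne
  push Not at hne
  have hgt : ∀ s : ℤ[X], s.Monic → s.natDegree ≠ 0 → s ∣ f → 1 < (s.coeff 0).natAbs := by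
    intro s hs hsd hsf
    have hsum : (1 : ℝ) < |((s.coeff 0 : ℤ) : ℝ)| := by
      rw [abs_coeff_zero_eq s hs]
      have hne0 : (s.map (Int.castRingHom ℂ)).roots ≠ 0 := fun he => hsd <| by
        rw [← hs.natDegree_map (Int.castRingHom ℂ),
          (IsAlgClosed.splits (s.map (Int.castRingHom ℂ))).natDegree_eq_card_roots, he,
          Multiset.card_zero]
      have hall : ∀ z ∈ (s.map (Int.castRingHom ℂ)).roots, 1 < ‖z‖ := fun z hz =>
        hroot z ((isRoot_of_mem_roots hz).dvd (Polynomial.map_dvd _ hsf))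
      revert hne0 hall
      generalize (s.map (Int.castRingHom ℂ)).roots = M
      intro hne0 hall
      induction M using Multiset.induction with
      | empty => exact absurd rfl hne0
      | cons a t ih =>
        rw [Multiset.map_cons, Multiset.prod_cons]
        have ha := hall a (Multiset.mem_cons_self a t)
        rcases eq_or_ne t 0 with rfl | ht
        · simpa using ha
        · have := ih ht fun z hz => hall z (Multiset.mem_cons_of_mem hz)
          nlinarith
    have h' : (1 : ℤ) < |s.coeff 0| := by exact_mod_cast hsum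
    rw [Int.abs_eq_natAbs] at h'
    omega
  have h1 := hgt g hg hne.1 ⟨k, hgk.symm⟩
  have h2 := hgt k hk hne.2 ⟨g, by rw [← hgk, mul_comm]⟩
  rw [← hgk, mul_coeff_zero, Int.natAbs_mul] at hp
  rcases Nat.prime_mul_iff.1 hp with ⟨-, e⟩ | ⟨-, e⟩ <;> omega

end FA.PerronCriterion
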