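import Fermat.Agent.PerronCriterion.Main
import Mathlib.Analysis.Complex.Norm

/-!
# Brauer's theorem

For `a₁ ≥ a₂ ≥ … ≥ aₙ ≥ 1` the product of `x - 1` and `xⁿ - a₁ x ^ (n - 1) - … - aₙ` satisfies
Perron's condition with equality.
-/

set_option autoImplicit false

namespace FA.PerronCriterion

open Polynomial Finset

variable {f : ℤ[X]}

/-- The coefficients of `(x - 1) f`. -/
theorem norm_coeff_times_sub_one (hf : f.Monic) {m : ℕ} (hm : f.natDegree = m + 2)
    (h0 : f.coeff 0 < 0) (hmono : ∀ k ≤ m, f.coeff (k + 1) ≤ f.coeff k) :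
    ‖((X - C 1) * f.map (Int.castRingHom ℂ)).coeff (m + 2)‖ = 1 - (f.coeff (m + 1) : ℝ) ∧
      ∑ k ∈ range (m + 2), ‖((X - C 1) * f.map (Int.castRingHom ℂ)).coeff k‖ =
        -(f.coeff (m + 1) : ℝ) := by
  have hneg : ∀ k ≤ m + 1, f.coeff k < 0 := by
    intro k hk
    induction k with
    | zero => exact h0
    | succ k ih => exact (hmono k (by omega)).trans_lt (ih (by omega))
  have hstep : ∀ k ≤ m, ‖((X - C 1) * f.map (Int.castRingHom ℂ)).coeff (k + 1)‖ =
      (f.coeff k : ℝ) - f.coeff (k + 1) := fun k hk => by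
    rw [coeff_X_sub_C_mul, one_mul, coeff_map, coeff_map, eq_intCast, eq_intCast, ← Int.cast_sub,
      Complex.norm_intCast, abs_of_nonneg (by have := hmono k hk; exact_mod_cast sub_nonneg.2 this)]
    push_cast
    ring
  constructor
  · rw [coeff_X_sub_C_mul, one_mul, coeff_map, coeff_map, eq_intCast, eq_intCast,
      show f.coeff (m + 2) = 1 from hm ▸ hf.coeff_natDegree, ← Int.cast_sub, Complex.norm_intCast,
      abs_of_nonpos (by
        have := hneg (m + 1) le_rfl
        exact_mod_cast (by omega : f.coeff (m + 1) - 1 ≤ 0))]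
    push_cast
    ring
  · rw [sum_range_succ', sum_congr rfl fun k hk => hstep k (Nat.lt_succ_iff.1 (mem_range.1 hk)),
      sum_range_sub' (fun k => (f.coeff k : ℝ))]
    simp only [mul_coeff_zero, coeff_sub, coeff_X_zero, coeff_C_zero, zero_sub, neg_mul, one_mul,
      norm_neg, coeff_map, eq_intCast, Complex.norm_intCast]
    rw [abs_of_neg (by exact_mod_cast h0)]
    ring

theorem eval_one_ne_zero (hf : f.Monic) {m : ℕ} (hm : f.natDegree = m + 2)
    (h0 : f.coeff 0 < 0) (hmono : ∀ k ≤ m, f.coeff (k + 1) ≤ f.coeff k) : f.eval 1 ≠ 0 := by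
  have hneg : ∀ k ≤ m + 1, f.coeff k < 0 := by
    intro k hk
    induction k with
    | zero => exact h0
    | succ k ih => exact (hmono k (by omega)).trans_lt (ih (by omega))
  rw [eval_eq_sum_range, hm, sum_range_succ, sum_range_succ,
    show f.coeff (m + 2) = 1 from hm ▸ hf.coeff_natDegree]
  have hs : ∑ k ∈ range (m + 1), f.coeff k * (1 : ℤ) ^ k < 0 :=
    sum_neg (fun k hk => by simpa using hneg k (by have := mem_range.1 hk; omega)) (by simp)
  have := hneg (m + 1) le_rfl
  simp only [one_pow, mul_one] at hs ⊢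
  omega

/-- On a root with `1 ≤ ‖z‖` the last two terms of `(x - 1) f` balance the others. -/
theorem norm_sub_le_of_root (hf : f.Monic) {m : ℕ} (hm : f.natDegree = m + 2)
    (h0 : f.coeff 0 < 0) (hmono : ∀ k ≤ m, f.coeff (k + 1) ≤ f.coeff k) {z : ℂ}
    (hz : (f.map (Int.castRingHom ℂ)).IsRoot z) (h1 : 1 ≤ ‖z‖) :
    ‖z - (1 - (f.coeff (m + 1) : ℂ))‖ ≤ -(f.coeff (m + 1) : ℝ) := by
  obtain ⟨-, hsum⟩ := norm_coeff_times_sub_one hf hm h0 hmono
  have hne : (f.map (Int.castRingHom ℂ)) ≠ 0 := (hf.map _).ne_zero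
  set Q := (X - C 1) * f.map (Int.castRingHom ℂ) with hQ
  have hQd : Q.natDegree = m + 3 := by
    rw [hQ, (monic_X_sub_C 1).natDegree_mul (hf.map _), natDegree_X_sub_C, hf.natDegree_map, hm]
    omega
  have he : Q.eval z = 0 := by rw [hQ, eval_mul, hz.eq_zero, mul_zero]
  rw [eval_eq_sum_range, hQd, sum_range_succ, sum_range_succ] at he
  have e1 : Q.coeff (m + 3) = 1 := hQd ▸ ((monic_X_sub_C 1).mul (hf.map _)).coeff_natDegree
  have e2 : Q.coeff (m + 2) = (f.coeff (m + 1) : ℂ) - 1 := by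
    rw [hQ, coeff_X_sub_C_mul, one_mul, coeff_map, coeff_map, eq_intCast, eq_intCast,
      show f.coeff (m + 2) = 1 from hm ▸ hf.coeff_natDegree, Int.cast_one]
  rw [e1, e2, one_mul] at he
  have hpos : 0 < ‖z‖ ^ (m + 2) := pow_pos (by linarith) _
  refine le_of_mul_le_mul_right ?_ hpos
  rw [← norm_pow, ← norm_mul,
    show (z - (1 - (f.coeff (m + 1) : ℂ))) * z ^ (m + 2) =
      -∑ k ∈ range (m + 2), Q.coeff k * z ^ k by linear_combination he, norm_neg, ← hsum, sum_mul]
  refine (norm_sum_le _ _).trans (sum_le_sum fun k hk => ?_)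
  rw [norm_mul, norm_pow, norm_pow]
  exact mul_le_mul_of_nonneg_left (pow_le_pow_right₀ h1 (mem_range.1 hk).le) (norm_nonneg _)

theorem brauer_no_circle_root (hf : f.Monic) {m : ℕ} (hm : f.natDegree = m + 2)
    (h0 : f.coeff 0 < 0) (hmono : ∀ k ≤ m, f.coeff (k + 1) ≤ f.coeff k) {z : ℂ}
    (hz : (f.map (Int.castRingHom ℂ)).IsRoot z) : ‖z‖ ≠ 1 := fun h1 => by
  have h := norm_sub_le_of_root hf hm h0 hmono hz h1.ge
  have h' := pow_le_pow_left₀ (norm_nonneg _) h 2
  rw [Complex.sq_norm, Complex.normSq_apply] at h'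
  simp only [Complex.sub_re, Complex.sub_im, Complex.one_re, Complex.one_im, Complex.intCast_re,
    Complex.intCast_im, sub_zero] at h'
  have hz2 : z.re * z.re + z.im * z.im = 1 := by
    rw [← Complex.normSq_apply, ← Complex.sq_norm, h1, one_pow]
  have hc : (f.coeff (m + 1) : ℝ) ≤ 0 := by
    have hs := (norm_coeff_times_sub_one hf hm h0 hmono).2
    have : 0 ≤ ∑ k ∈ range (m + 2), ‖((X - C 1) * f.map (Int.castRingHom ℂ)).coeff k‖ :=
      sum_nonneg fun k _ => norm_nonneg _
    linarith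
  have hre : 1 ≤ z.re := by nlinarith
  have hz1 : z = 1 := Complex.ext (by rw [Complex.one_re]; nlinarith)
    (by rw [Complex.one_im]; nlinarith)
  rw [hz1] at hz
  refine eval_one_ne_zero hf hm h0 hmono ?_
  have := hz.eq_zero
  rw [eval_map, eval₂_at_one, eq_intCast, Int.cast_eq_zero] at this
  exact this

/-- Brauer: one root `α > 1` and all other roots inside the open unit disc. -/
theorem brauer (hf : f.Monic) {m : ℕ} (hm : f.natDegree = m + 2)
    (h0 : f.coeff 0 < 0) (hmono : ∀ k ≤ m, f.coeff (k + 1) ≤ f.coeff k) :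
    Irreducible f ∧ ∃ α : ℝ, 1 < α ∧ aeval α f = 0 ∧
      ∀ z : ℂ, aeval z f = 0 → z ≠ α → ‖z‖ < 1 := by
  obtain ⟨hn, hsum⟩ := norm_coeff_times_sub_one hf hm h0 hmono
  obtain ⟨α, hα⟩ := Multiset.exists_mem_of_ne_zero (outerRoots_ne_zero hf (by omega) h0.ne)
  rw [outerRoots, Multiset.mem_filter] at hα
  have hr := isRoot_of_mem_roots hα.1
  have hα1 : 1 < ‖α‖ :=
    lt_of_le_of_ne hα.2 (Ne.symm (brauer_no_circle_root hf hm h0 hmono hr))
  obtain ⟨R, hR⟩ := dvd_iff_isRoot.2 hr
  have hRm : R.Monic := (monic_X_sub_C α).of_mul_monic_left (hR ▸ hf.map _)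
  have hR'm : ((X - C 1) * R).Monic := (monic_X_sub_C 1).mul hRm
  have hR'd : ((X - C 1) * R).natDegree = m + 1 + 1 := by
    have := congrArg natDegree hR
    rw [hf.natDegree_map, (monic_X_sub_C α).natDegree_mul hRm, natDegree_X_sub_C, hm] at this
    rw [(monic_X_sub_C 1).natDegree_mul hRm, natDegree_X_sub_C]
    omega
  have hb := sum_cofactor_le hR'm α hR'd
  rw [mul_left_comm, ← hR, hsum, hn] at hb
  have hsingle : outerRoots f = {α} := by
    refine outerRoots_eq_singleton hf hR hα.2 fun z hz => ?_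
    refine lt_of_le_of_ne ((norm_root_le hR'm (z := z) ?_).2 ?_)
      (brauer_no_circle_root hf hm h0 hmono ?_)
    · rw [IsRoot, eval_mul, hz.eq_zero, mul_zero]
    · rw [hR'd]
      nlinarith
    · rw [hR, IsRoot, eval_mul, hz.eq_zero, mul_zero]
  have huniq : ∀ z : ℂ, (f.map (Int.castRingHom ℂ)).IsRoot z → 1 ≤ ‖z‖ → z = α := by
    intro z hz h1
    have hmem : z ∈ outerRoots f :=
      Multiset.mem_filter.2 ⟨(mem_roots (hf.map _).ne_zero).2 hz, h1⟩
    rw [hsingle, Multiset.mem_singleton] at hmem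
    exact hmem
  have hconj : (starRingEnd ℂ) α = α := by
    refine huniq _ ?_ (by rw [Complex.norm_conj]; exact hα.2)
    have h := congrArg (starRingEnd ℂ) hr.eq_zero
    rw [map_zero, eval_map, hom_eval₂, RingHom.ext_int ((starRingEnd ℂ).comp (Int.castRingHom ℂ))
      (Int.castRingHom ℂ)] at h
    rwa [IsRoot, eval_map]
  obtain ⟨r, rfl⟩ : ∃ r : ℝ, (r : ℂ) = α := ⟨α.re, (Complex.conj_eq_iff_re.1 hconj)⟩
  have hr1 : 1 < r := by
    rw [Complex.norm_real, Real.norm_eq_abs] at hα1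
    rcases lt_abs.1 hα1 with h | h
    · exact h
    · exfalso
      have h' := norm_sub_le_of_root hf hm h0 hmono hr hα.2
      rw [show (r : ℂ) - (1 - (f.coeff (m + 1) : ℂ)) =
        ((r - (1 - (f.coeff (m + 1) : ℝ)) : ℝ) : ℂ) by push_cast; ring,
        Complex.norm_real, Real.norm_eq_abs] at h'
      linarith [(abs_le.1 h').1]
  have haev : ∀ z : ℂ, aeval z f = (f.map (Int.castRingHom ℂ)).eval z := fun z => by
    rw [eval_map, aeval_def, algebraMap_int_eq]
  refine ⟨irreducible_of_outerRoots hf (by omega) h0.ne (by simp [hsingle]), r, hr1, ?_,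
    fun z hz hne => ?_⟩
  · have h := aeval_algebraMap_apply ℂ r f
    rw [Complex.coe_algebraMap, haev, hr.eq_zero] at h
    exact_mod_cast h.symm
  · by_contra hc
    push Not at hc
    exact hne (huniq z (by rw [IsRoot, ← haev, hz]) hc)

end FA.PerronCriterion
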